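import Mathlib

set_option autoImplicit false

namespace Fermat.Agent.S07x

open scoped MatrixGroups

/-- Coset representative `[[0,-1],[1,0]]`. -/
def repTwo : SL(2, ℤ) := ⟨!![0, -1; 1, 0], by simp [Matrix.det_fin_two_of]⟩

/-- Coset representative `[[1,0],[1,1]]`. -/
def repThree : SL(2, ℤ) := ⟨!![1, 0; 1, 1], by simp [Matrix.det_fin_two_of]⟩

theorem repTwo_inv_mul_apply (g : SL(2, ℤ)) : (repTwo⁻¹ * g) 1 0 = - g 0 0 := by
  rw [Matrix.SpecialLinearGroup.coe_mul, Matrix.SpecialLinearGroup.coe_inv]
  simp [repTwo, Matrix.adjugate_fin_two, Matrix.mul_apply, Fin.sum_univ_two]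

theorem repThree_inv_mul_apply (g : SL(2, ℤ)) : (repThree⁻¹ * g) 1 0 = g 1 0 - g 0 0 := by
  rw [Matrix.SpecialLinearGroup.coe_mul, Matrix.SpecialLinearGroup.coe_inv]
  simp [repThree, Matrix.adjugate_fin_two, Matrix.mul_apply, Fin.sum_univ_two]
  ring

theorem index_Gamma0_two_le : (CongruenceSubgroup.Gamma0 2).index ≤ 3 := by
  classical
  let r : Fin 3 → SL(2, ℤ) := ![1, repTwo, repThree]
  have hsurj : Function.Surjective
      (fun i => (QuotientGroup.mk (r i) : SL(2, ℤ) ⧸ CongruenceSubgroup.Gamma0 2)) := by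
    intro q
    induction q using QuotientGroup.induction_on with
    | H g =>
      rcases Int.emod_two_eq_zero_or_one (g 1 0) with hc | hc
      · refine ⟨0, ?_⟩
        rw [QuotientGroup.eq]
        simp only [r, Matrix.cons_val_zero, inv_one, one_mul, CongruenceSubgroup.Gamma0_mem]
        rw [ZMod.intCast_zmod_eq_zero_iff_dvd]
        exact Int.dvd_of_emod_eq_zero hc
      · rcases Int.emod_two_eq_zero_or_one (g 0 0) with ha | ha
        · refine ⟨1, ?_⟩
          rw [QuotientGroup.eq]
          simp only [r, Matrix.cons_val_one, Matrix.cons_val_zero, CongruenceSubgroup.Gamma0_mem]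
          rw [repTwo_inv_mul_apply, ZMod.intCast_zmod_eq_zero_iff_dvd]
          omega
        · refine ⟨2, ?_⟩
          rw [QuotientGroup.eq]
          simp only [r, CongruenceSubgroup.Gamma0_mem]
          show (((repThree⁻¹ * g) 1 0 : ℤ) : ZMod 2) = 0
          rw [repThree_inv_mul_apply, ZMod.intCast_zmod_eq_zero_iff_dvd]
          omega
  have := Nat.card_le_card_of_surjective _ hsurj
  simpa [Subgroup.index] using this

end Fermat.Agent.S07x
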